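import Mathlib
import Fermat.Agent.S14.H70.Defs

/-!
# S14, package T (Thaine), class-group half (helper98, backup of T-field+cls)

`thaine_char_of_relation`: the skeleton statement `thaine_char`, derived from the Thaine relation
`(γ) = 𝔠^p · ∏_{v ∣ q} v^{s_v}`, `g^{s_v} ≡ ζ - 1 mod v`, which is taken as a hypothesis.

Proof.  The primes over `q = N Q` are the `v_σ = σ⁻¹ Q`, `σ ∈ Gal(K/ℚ)`, bijectively (transitivity
of the Galois action; trivial stabiliser because `Q` has degree one and `p ∉ Q`).  Applying `χ` to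
the factorisation of `(γ)` gives `∑_σ s_σ e(n_σ) ≡ 0 mod p` (`σ ζ = ζ^{n_σ}`), and
`ζ^{n_σ} - 1 ≡ g^{s_σ} mod Q`, so `θ₂ ≡ g^{∑ s_σ e(n_σ)}` is a `p`-th power modulo `Q`.
-/

set_option autoImplicit false
set_option linter.unusedSectionVars false

namespace Fermat.Agent.S14.H98

open NumberField IsDedekindDomain
open scoped nonZeroDivisors
open Fermat.Agent.S14.H70

variable {p : ℕ} [Fact p.Prime] {K : Type} [Field K] [NumberField K]

/-- Modulo a prime of degree one every integer of `K` is congruent to a rational integer. -/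
theorem exists_int_sub_mem {Q : Ideal (𝓞 K)} (hq : (Ideal.absNorm Q).Prime) (x : 𝓞 K) :
    ∃ n : ℤ, x - (n : 𝓞 K) ∈ Q := by
  have : Fact (Ideal.absNorm Q).Prime := ⟨hq⟩
  have hcard : Nat.card (𝓞 K ⧸ Q) = Ideal.absNorm Q := by
    rw [Ideal.absNorm_apply, Submodule.cardQuot_apply]
  have h1 : (1 : 𝓞 K ⧸ Q) ≠ 0 := by
    intro h
    have hsub : Subsingleton (𝓞 K ⧸ Q) := subsingleton_of_zero_eq_one h.symm
    have : Nat.card (𝓞 K ⧸ Q) = 1 := Nat.card_unique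
    rw [hcard] at this
    exact hq.one_lt.ne' this
  have htop := zmultiples_eq_top_of_prime_card hcard h1
  have hx : Ideal.Quotient.mk Q x ∈ AddSubgroup.zmultiples (1 : 𝓞 K ⧸ Q) := by
    rw [htop]; exact AddSubgroup.mem_top _
  obtain ⟨n, hn⟩ := AddSubgroup.mem_zmultiples_iff.mp hx
  refine ⟨n, ?_⟩
  rw [← Ideal.Quotient.eq, ← hn]
  simp

/-- In `Multiplicative (ZMod p)` every element has order dividing `p`. -/
theorem pow_prime_eq_one (x : Multiplicative (ZMod p)) : x ^ p = 1 := by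
  apply Multiplicative.toAdd.injective
  rw [toAdd_pow, toAdd_one, nsmul_eq_mul, CharP.cast_eq_zero, zero_mul]

/-- `χ` applied to the prime factorisation of a principal ideal. -/
theorem finprod_char_pow_cnt_eq_one (χ : ClassGroup (𝓞 K) →* Multiplicative (ZMod p))
    (γ : 𝓞 K) (hγ : γ ≠ 0) :
    ∏ᶠ v : HeightOneSpectrum (𝓞 K),
      χ (ClassGroup.mk0 ⟨v.asIdeal, mem_nonZeroDivisors_of_ne_zero v.ne_bot⟩) ^ cnt v γ = 1 := by
  have hI0 : Ideal.span {γ} ≠ (0 : Ideal (𝓞 K)) := by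
    simpa using hγ
  set f : HeightOneSpectrum (𝓞 K) → (Ideal (𝓞 K))⁰ := fun v =>
    ⟨v.asIdeal, mem_nonZeroDivisors_of_ne_zero v.ne_bot⟩ ^ cnt v γ with hf
  have hcoe : ∀ v, ((f v : (Ideal (𝓞 K))⁰) : Ideal (𝓞 K)) = v.maxPowDividing (Ideal.span {γ}) := by
    intro v
    rfl
  have hfin : Function.HasFiniteMulSupport f := by
    refine Set.Finite.subset (Ideal.hasFiniteMulSupport hI0) ?_
    intro v hv
    rw [Function.mem_mulSupport] at hv ⊢
    intro h1
    apply hv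
    apply Subtype.ext
    rw [hcoe, h1]
    rfl
  have hprod : ∏ᶠ v, f v = ⟨Ideal.span {γ}, mem_nonZeroDivisors_of_ne_zero hI0⟩ := by
    apply Subtype.ext
    have h := MonoidHom.map_finprod (Submonoid.subtype (Ideal (𝓞 K))⁰) hfin
    simp only [Submonoid.coe_subtype] at h
    rw [h]
    simp_rw [hcoe]
    exact Ideal.finprod_heightOneSpectrum_factorization hI0
  have hprinc : χ (ClassGroup.mk0 ⟨Ideal.span {γ}, mem_nonZeroDivisors_of_ne_zero hI0⟩) = 1 := by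
    rw [(ClassGroup.mk0_eq_one_iff _).mpr ⟨γ, rfl⟩, map_one]
  rw [← hprod] at hprinc
  have h2 := MonoidHom.map_finprod (χ.comp (ClassGroup.mk0 (R := 𝓞 K))) hfin
  simp only [MonoidHom.comp_apply] at h2
  rw [h2] at hprinc
  rw [← hprinc]
  refine finprod_congr fun v => ?_
  simp only [hf, map_pow]

section Cyclo

variable [IsCyclotomicExtension {p} ℚ K] {ζ : K}

/-- If two distinct powers (exponents `< p`) of `ζ` are congruent modulo a prime `Q`, then
`p ∈ Q`. -/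
theorem natCast_mem_of_pow_sub_pow_mem [NeZero p] (hζ : IsPrimitiveRoot ζ p) {Q : Ideal (𝓞 K)}
    (hQ : Q.IsPrime) {m n : ℕ} (hm : m < p) (hn : n < p) (hmn : m ≠ n)
    (h : hζ.toInteger ^ m - hζ.toInteger ^ n ∈ Q) : (p : 𝓞 K) ∈ Q := by
  have hp : p.Prime := Fact.out
  wlog hlt : m < n generalizing m n
  · have hlt' : n < m := lt_of_le_of_ne (not_lt.mp hlt) (Ne.symm hmn)
    refine this hn hm (Ne.symm hmn) ?_ hlt'
    have : hζ.toInteger ^ n - hζ.toInteger ^ m = -(hζ.toInteger ^ m - hζ.toInteger ^ n) := by ring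
    rw [this]
    exact Q.neg_mem h
  set z : 𝓞 K ⧸ Q := Ideal.Quotient.mk Q hζ.toInteger with hz
  have hzp : z ^ p = 1 := by
    rw [hz, ← map_pow, hζ.toInteger_isPrimitiveRoot.pow_eq_one, map_one]
  have hzmn : z ^ m = z ^ n := by
    rw [hz, ← map_pow, ← map_pow]
    exact Ideal.Quotient.eq.mpr h
  have hz0 : z ≠ 0 := by
    intro h0
    rw [h0, zero_pow hp.ne_zero] at hzp
    exact zero_ne_one hzp
  have hd : z ^ (n - m) = 1 := by
    have h1 : z ^ m * (z ^ (n - m) - 1) = 0 := by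
      rw [mul_sub, ← pow_add, Nat.add_sub_cancel' hlt.le, mul_one, hzmn, sub_self]
    rcases mul_eq_zero.mp h1 with h2 | h2
    · exact absurd h2 (pow_ne_zero _ hz0)
    · exact sub_eq_zero.mp h2
  have hcop : Nat.gcd (n - m) p = 1 := by
    have : Nat.Coprime p (n - m) :=
      (Nat.Prime.coprime_iff_not_dvd hp).mpr (Nat.not_dvd_of_pos_of_lt (by omega) (by omega))
    exact this.symm
  have hz1 : z = 1 := by
    have := (pow_gcd_eq_one (a := z) (m := n - m) (n := p)).mpr ⟨hd, hzp⟩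
    rwa [hcop, pow_one] at this
  have hsum := hζ.toInteger_isPrimitiveRoot.geom_sum_eq_zero hp.one_lt
  have h3 := congrArg (Ideal.Quotient.mk Q) hsum
  rw [map_sum, map_zero] at h3
  simp only [map_pow, ← hz, hz1, one_pow, Finset.sum_const, Finset.card_range, nsmul_eq_mul,
    mul_one] at h3
  rw [← map_natCast (Ideal.Quotient.mk Q)] at h3
  exact Ideal.Quotient.eq_zero_iff_mem.mp h3

/-- The exponent `n_σ` with `σ ζ = ζ ^ n_σ`. -/
noncomputable def galExp [NeZero p] (σ : K ≃ₐ[ℚ] K) : ℕ :=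
  (IsCyclotomicExtension.Rat.galEquivZMod p K σ).val.val

theorem galExp_spec [NeZero p] (hζ : IsPrimitiveRoot ζ p) (σ : K ≃ₐ[ℚ] K) :
    σ ζ = ζ ^ galExp (p := p) σ :=
  IsCyclotomicExtension.Rat.galEquivZMod_apply_of_pow_eq p K σ hζ.pow_eq_one

theorem galExp_lt [NeZero p] (σ : K ≃ₐ[ℚ] K) : galExp (p := p) σ < p := ZMod.val_lt _

theorem galExp_pos [NeZero p] (σ : K ≃ₐ[ℚ] K) : 0 < galExp (p := p) σ := by
  have hp : p.Prime := Fact.out
  rw [galExp, Nat.pos_iff_ne_zero, Ne, ZMod.val_eq_zero]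
  exact (IsCyclotomicExtension.Rat.galEquivZMod p K σ).ne_zero

theorem galExp_injective [NeZero p] : Function.Injective (galExp (p := p) (K := K)) := by
  intro σ τ h
  apply (IsCyclotomicExtension.Rat.galEquivZMod p K).injective
  apply Units.ext
  exact ZMod.val_injective p h

theorem exists_galExp_eq [NeZero p] {b : ℕ} (hb1 : 1 ≤ b) (hbp : b < p) :
    ∃ σ : K ≃ₐ[ℚ] K, galExp (p := p) σ = b := by
  have hp : p.Prime := Fact.out
  have hcop : Nat.Coprime b p :=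
    ((Nat.Prime.coprime_iff_not_dvd hp).mpr (Nat.not_dvd_of_pos_of_lt hb1 hbp)).symm
  refine ⟨(IsCyclotomicExtension.Rat.galEquivZMod p K).symm (ZMod.unitOfCoprime b hcop), ?_⟩
  rw [galExp, MulEquiv.apply_symm_apply, ZMod.coe_unitOfCoprime, ZMod.val_natCast_of_lt hbp]

theorem galRestrict_toInteger [NeZero p] (hζ : IsPrimitiveRoot ζ p) (σ : K ≃ₐ[ℚ] K) :
    galRestrict ℤ ℚ K (𝓞 K) σ hζ.toInteger = hζ.toInteger ^ galExp (p := p) σ := by
  apply FaithfulSMul.algebraMap_injective (𝓞 K) K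
  rw [algebraMap_galRestrict_apply, map_pow]
  exact galExp_spec hζ σ

end Cyclo

section Main

variable [IsCyclotomicExtension {p} ℚ K] {ζ : K}

/-- The prime `σ⁻¹ Q` of `𝓞 K`. -/
noncomputable def conjPrime (Q : Ideal (𝓞 K)) (hQ : Q.IsPrime) (hQ0 : Q ≠ ⊥) (σ : K ≃ₐ[ℚ] K) :
    HeightOneSpectrum (𝓞 K) where
  asIdeal := Q.comap (galRestrict ℤ ℚ K (𝓞 K) σ)
  isPrime := Ideal.comap_isPrime _ Q
  ne_bot := by
    intro h
    obtain ⟨x, hxQ, hx0⟩ := Submodule.exists_mem_ne_zero_of_ne_bot hQ0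
    have h1 : (galRestrict ℤ ℚ K (𝓞 K) σ).symm x ∈ Q.comap (galRestrict ℤ ℚ K (𝓞 K) σ) := by
      rw [Ideal.mem_comap, AlgEquiv.apply_symm_apply]
      exact hxQ
    rw [h, Ideal.mem_bot] at h1
    exact hx0 (by simpa using h1)

/-- **Thaine, class-group half**: the skeleton statement `thaine_char`, given the Thaine relation
for the prime `Q`: an element `γ ≠ 0` and `g : ℕ` such that `p ∣ v(γ)` for all `v ∤ q` and
`g ^ v(γ) ≡ ζ - 1 mod v` for all `v ∣ q`, where `q = N Q`. -/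
theorem thaine_char_of_relation
    (hζ : IsPrimitiveRoot ζ p) (χ : ClassGroup (𝓞 K) →* Multiplicative (ZMod p))
    (hχ : IsEigenChar hζ χ) (Q : (Ideal (𝓞 K))⁰) (hQ : (Q : Ideal (𝓞 K)).IsPrime)
    (hq : (Ideal.absNorm (Q : Ideal (𝓞 K))).Prime) (hQp : (p : 𝓞 K) ∉ (Q : Ideal (𝓞 K)))
    (hQχ : χ (ClassGroup.mk0 Q) ≠ 1)
    (γ : 𝓞 K) (g : ℕ) (hγ : γ ≠ 0)
    (h1 : ∀ v : HeightOneSpectrum (𝓞 K),
      ((Ideal.absNorm (Q : Ideal (𝓞 K)) : ℕ) : 𝓞 K) ∉ v.asIdeal → p ∣ cnt v γ)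
    (h2 : haveI : NeZero p := ⟨(Fact.out : p.Prime).ne_zero⟩
      ∀ v : HeightOneSpectrum (𝓞 K), ((Ideal.absNorm (Q : Ideal (𝓞 K)) : ℕ) : 𝓞 K) ∈ v.asIdeal →
        (g : 𝓞 K) ^ cnt v γ - (hζ.toInteger - 1) ∈ v.asIdeal) :
    ∃ y : 𝓞 K, thetaTwo hζ - y ^ p ∈ (Q : Ideal (𝓞 K)) := by
  classical
  have : NeZero p := ⟨(Fact.out : p.Prime).ne_zero⟩
  have hp : p.Prime := Fact.out
  set q := Ideal.absNorm (Q : Ideal (𝓞 K)) with hqdef
  have hQ0 : (Q : Ideal (𝓞 K)) ≠ ⊥ := nonZeroDivisors.coe_ne_zero Q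
  have hqQ : (q : 𝓞 K) ∈ (Q : Ideal (𝓞 K)) := Ideal.absNorm_mem _
  have : IsGalois ℚ K := IsCyclotomicExtension.isGalois {p} ℚ K
  -- the primes over `q`
  set w : (K ≃ₐ[ℚ] K) → HeightOneSpectrum (𝓞 K) := fun σ => conjPrime (Q : Ideal (𝓞 K)) hQ hQ0 σ
    with hw
  have hw_mem : ∀ σ x, x ∈ (w σ).asIdeal ↔
      galRestrict ℤ ℚ K (𝓞 K) σ x ∈ (Q : Ideal (𝓞 K)) := fun σ x => Iff.rfl
  have hqw : ∀ σ, (q : 𝓞 K) ∈ (w σ).asIdeal := by
    intro σ
    rw [hw_mem, map_natCast]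
    exact hqQ
  have hw_inj : Function.Injective w := by
    intro σ τ hστ
    by_contra hne
    have hexp : galExp (p := p) σ ≠ galExp (p := p) τ := fun h => hne (galExp_injective h)
    obtain ⟨m, hm⟩ := exists_int_sub_mem hq (galRestrict ℤ ℚ K (𝓞 K) σ hζ.toInteger)
    have h3 : hζ.toInteger - (m : 𝓞 K) ∈ (w σ).asIdeal := by
      rw [hw_mem, map_sub, map_intCast]
      exact hm
    rw [hστ, hw_mem, map_sub, map_intCast] at h3
    have h4 : galRestrict ℤ ℚ K (𝓞 K) σ hζ.toInteger - galRestrict ℤ ℚ K (𝓞 K) τ hζ.toInteger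
        ∈ (Q : Ideal (𝓞 K)) := by
      have := (Q : Ideal (𝓞 K)).sub_mem hm h3
      simpa using this
    rw [galRestrict_toInteger, galRestrict_toInteger] at h4
    exact hQp (natCast_mem_of_pow_sub_pow_mem hζ hQ (galExp_lt σ) (galExp_lt τ) hexp h4)
  have hw_surj : ∀ v : HeightOneSpectrum (𝓞 K), (q : 𝓞 K) ∈ v.asIdeal → ∃ σ, w σ = v := by
    intro v hv
    have hqmax : (Ideal.span {(q : ℤ)}).IsMaximal :=
      PrincipalIdealRing.isMaximal_of_irreducible (Nat.prime_iff_prime_int.mp hq).irreducible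
    have hover : ∀ P : Ideal (𝓞 K), P.IsPrime → (q : 𝓞 K) ∈ P →
        P ∈ (Ideal.span {(q : ℤ)}).primesOver (𝓞 K) := by
      intro P hP hqP
      refine ⟨hP, ⟨?_⟩⟩
      apply hqmax.eq_of_le (Ideal.comap_ne_top _ hP.ne_top)
      rw [Ideal.span_singleton_le_iff_mem]
      exact Ideal.mem_comap.mpr (by simpa using hqP)
    obtain ⟨σ, hσ⟩ := Ideal.exists_comap_galRestrict_eq ℤ ℚ K (𝓞 K) (hover _ hQ hqQ)
      (hover _ v.isPrime hv)
    exact ⟨σ, HeightOneSpectrum.ext hσ⟩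
  -- the character on the factorisation of `(γ)`
  set c : HeightOneSpectrum (𝓞 K) → Multiplicative (ZMod p) := fun v =>
    χ (ClassGroup.mk0 ⟨v.asIdeal, mem_nonZeroDivisors_of_ne_zero v.ne_bot⟩) with hc
  have hA := finprod_char_pow_cnt_eq_one χ γ hγ
  have hB : ∏ σ : K ≃ₐ[ℚ] K, c (w σ) ^ cnt (w σ) γ = 1 := by
    rw [← hA]
    symm
    rw [finprod_eq_prod_of_mulSupport_subset (s := Finset.univ.image w)]
    · rw [Finset.prod_image (fun σ _ τ _ h => hw_inj h)]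
    · intro v hv
      rw [Function.mem_mulSupport] at hv
      by_contra hnot
      apply hv
      have hqv : (q : 𝓞 K) ∉ v.asIdeal := by
        intro hqv
        obtain ⟨σ, rfl⟩ := hw_surj v hqv
        exact hnot (by simp)
      obtain ⟨k, hk⟩ := h1 v hqv
      rw [hk, pow_mul, pow_prime_eq_one, one_pow]
  have hC : ∀ σ, c (w σ) ^ (galExp (p := p) σ ^ 2) = χ (ClassGroup.mk0 Q) := by
    intro σ
    refine (hχ σ (galExp (p := p) σ) (galExp_spec hζ σ)
      ⟨(w σ).asIdeal, mem_nonZeroDivisors_of_ne_zero (w σ).ne_bot⟩ Q ?_).symm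
    show (Q : Ideal (𝓞 K)) = Ideal.map (galRestrict ℤ ℚ K (𝓞 K) σ)
      (Ideal.comap (galRestrict ℤ ℚ K (𝓞 K) σ) (Q : Ideal (𝓞 K)))
    rw [Ideal.map_comap_of_surjective _ (galRestrict ℤ ℚ K (𝓞 K) σ).surjective]
  -- additive form
  set wt : ZMod p := Multiplicative.toAdd (χ (ClassGroup.mk0 Q)) with hwt
  have hwt0 : wt ≠ 0 := by
    intro h0
    apply hQχ
    apply Multiplicative.toAdd.injective
    rw [← hwt, h0, toAdd_one]
  have hx : ∀ σ, Multiplicative.toAdd (c (w σ))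
      = (eExp p (galExp (p := p) σ) : ZMod p) * wt := by
    intro σ
    have h3 := congrArg Multiplicative.toAdd (hC σ)
    rw [toAdd_pow, nsmul_eq_mul, ← hwt] at h3
    have hnd : ¬ p ∣ galExp (p := p) σ := Nat.not_dvd_of_pos_of_lt (galExp_pos σ) (galExp_lt σ)
    have h4 := eExp_mul_sq p hnd
    calc Multiplicative.toAdd (c (w σ))
        = ((eExp p (galExp (p := p) σ) : ZMod p) * (galExp (p := p) σ : ZMod p) ^ 2)
            * Multiplicative.toAdd (c (w σ)) := by rw [h4, one_mul]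
      _ = (eExp p (galExp (p := p) σ) : ZMod p) * wt := by
          rw [← h3]
          push_cast
          ring
  have hsum : p ∣ ∑ σ : K ≃ₐ[ℚ] K, cnt (w σ) γ * eExp p (galExp (p := p) σ) := by
    have h5 := congrArg Multiplicative.toAdd hB
    rw [toAdd_prod, toAdd_one] at h5
    simp only [toAdd_pow, nsmul_eq_mul, hx] at h5
    rw [← ZMod.natCast_eq_zero_iff]
    push_cast
    have h6 : (∑ σ : K ≃ₐ[ℚ] K, (cnt (w σ) γ : ZMod p)
        * (eExp p (galExp (p := p) σ) : ZMod p)) * wt = 0 := by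
      rw [Finset.sum_mul, ← h5]
      exact Finset.sum_congr rfl fun σ _ => by ring
    exact (mul_eq_zero.mp h6).resolve_right hwt0
  -- conclusion
  obtain ⟨k, hk⟩ := hsum
  refine ⟨(g : 𝓞 K) ^ k, ?_⟩
  rw [← Ideal.Quotient.eq]
  have hcong : ∀ σ, Ideal.Quotient.mk (Q : Ideal (𝓞 K)) (hζ.toInteger ^ galExp (p := p) σ - 1)
      = Ideal.Quotient.mk (Q : Ideal (𝓞 K)) ((g : 𝓞 K) ^ cnt (w σ) γ) := by
    intro σ
    have h7 := h2 (w σ) (hqw σ)
    rw [hw_mem, map_sub, map_sub, map_pow, map_natCast, map_one, galRestrict_toInteger] at h7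
    exact (Ideal.Quotient.eq.mpr h7).symm
  have hθ : thetaTwo hζ = ∏ σ : K ≃ₐ[ℚ] K,
      (hζ.toInteger ^ galExp (p := p) σ - 1) ^ eExp p (galExp (p := p) σ) := by
    unfold thetaTwo
    symm
    apply Finset.prod_bij (fun σ _ => galExp (p := p) σ)
    · intro σ _
      exact Finset.mem_Ico.mpr ⟨galExp_pos σ, galExp_lt σ⟩
    · intro σ _ τ _ h
      exact galExp_injective h
    · intro b hb
      obtain ⟨hb1, hbp⟩ := Finset.mem_Ico.mp hb
      obtain ⟨σ, hσ⟩ := exists_galExp_eq (K := K) hb1 hbp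
      exact ⟨σ, Finset.mem_univ _, hσ⟩
    · intro σ _
      rfl
  calc Ideal.Quotient.mk (Q : Ideal (𝓞 K)) (thetaTwo hζ)
      = ∏ σ : K ≃ₐ[ℚ] K, Ideal.Quotient.mk (Q : Ideal (𝓞 K))
          (hζ.toInteger ^ galExp (p := p) σ - 1) ^ eExp p (galExp (p := p) σ) := by
        rw [hθ, map_prod]
        exact Finset.prod_congr rfl fun σ _ => map_pow _ _ _
    _ = ∏ σ : K ≃ₐ[ℚ] K, Ideal.Quotient.mk (Q : Ideal (𝓞 K)) (g : 𝓞 K)
          ^ (cnt (w σ) γ * eExp p (galExp (p := p) σ)) := by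
        refine Finset.prod_congr rfl fun σ _ => ?_
        rw [hcong σ, map_pow, ← pow_mul]
    _ = Ideal.Quotient.mk (Q : Ideal (𝓞 K)) (g : 𝓞 K)
          ^ ∑ σ : K ≃ₐ[ℚ] K, cnt (w σ) γ * eExp p (galExp (p := p) σ) :=
        Finset.prod_pow_eq_pow_sum _ _ _
    _ = Ideal.Quotient.mk (Q : Ideal (𝓞 K)) (((g : 𝓞 K) ^ k) ^ p) := by
        rw [hk, map_pow, map_pow, ← pow_mul, mul_comm]

end Main

end Fermat.Agent.S14.H98
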