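import Mathlib
import Fermat.Agent.S14.H71.ThaineGlue

/-!
# S14 / Thaine package: the field-theoretic part (helper98)

For `K = ℚ(ζ_p)` and a prime `q ≠ p` with `p ∣ q - 1`, put `M = K(ζ_q)`.  Then `M / K` is cyclic of
degree `q - 1`, `N_{M/K}(ζ_p - ζ_q) = Φ_q(ζ_p) = 1`, and the integral form of Hilbert 90 gives
`β ∈ 𝓞 M`, `β ≠ 0`, with `τ β = (ζ_p - ζ_q) β` for a generator `τ`; its norm `γ` is
`β ^ (q - 1)` times a unit.  This is `H71.ThaineFieldData`, and with `H71.thaine_char_of_fieldData`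
it gives the skeleton statement `thaine_char`.
-/

open NumberField Polynomial
open scoped nonZeroDivisors
open Fermat.Agent.S14.H70

namespace Fermat.Agent.S14.H98

/-- The norm of `a - θ` for a power basis generator `θ` is the value at `a` of the minimal
polynomial of `θ`. -/
theorem norm_algebraMap_sub_gen {K M : Type*} [Field K] [Field M] [Algebra K M]
    (pb : PowerBasis K M) (a : K) :
    Algebra.norm K (algebraMap K M a - pb.gen) = (minpoly K pb.gen).eval a := by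
  rw [Algebra.norm_eq_matrix_det pb.basis, map_sub, ← charpoly_leftMulMatrix pb,
    Matrix.eval_charpoly, AlgHom.commutes]
  rfl

section generic

variable {p q : ℕ} [hp : Fact p.Prime] [hq : Fact q.Prime] {K M : Type} [Field K] [NumberField K]
  [Field M] [NumberField M] [Algebra K M]

omit [NumberField M] in
/-- `N_{M/K}(ζ_p - ζ_q) = Φ_q(ζ_p) = 1` when `p ∣ q - 1`. -/
theorem norm_zeta_sub_zeta [IsCyclotomicExtension {q} K M]
    (hirr : Irreducible (cyclotomic q K)) {ζ : K} (hζ : IsPrimitiveRoot ζ p) (hpq : p ∣ q - 1)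
    {ζq : M} (hζq : IsPrimitiveRoot ζq q) :
    Algebra.norm K (algebraMap K M ζ - ζq) = 1 := by
  have hqp : q.Prime := hq.out
  have : NeZero q := ⟨hqp.ne_zero⟩
  have : NeZero (q : K) := ⟨by exact_mod_cast hqp.ne_zero⟩
  have h1 := norm_algebraMap_sub_gen (hζq.powerBasis K) ζ
  rw [IsPrimitiveRoot.powerBasis_gen, ← hζq.minpoly_eq_cyclotomic_of_irreducible hirr,
    cyclotomic_prime, eval_geom_sum] at h1
  rw [h1]
  have hζ1 : ζ ≠ 1 := hζ.ne_one hp.out.one_lt
  have hζq' : ζ ^ q = ζ := by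
    obtain ⟨k, hk⟩ := hpq
    have : q = p * k + 1 := by have := hqp.pos; omega
    rw [this, pow_succ, pow_mul, hζ.pow_eq_one, one_pow, one_mul]
  have h2 : (∑ i ∈ Finset.range q, ζ ^ i) * (ζ - 1) = ζ - 1 := by
    rw [geom_sum_mul, hζq']
  exact mul_right_cancel₀ (sub_ne_zero.mpr hζ1) (by rw [h2, one_mul])

/-- Every power of `τ` multiplies `β` by a unit, if `τ β = δ β` with `δ` a unit. -/
theorem exists_unit_pow_apply (τ : M ≃ₐ[K] M) (β : 𝓞 M) (δ : (𝓞 M)ˣ)
    (hδ : τ (β : M) = ((δ : 𝓞 M) : M) * (β : M)) (n : ℕ) :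
    ∃ w : (𝓞 M)ˣ, (τ ^ n) (β : M) = ((w : 𝓞 M) : M) * (β : M) := by
  induction n with
  | zero => exact ⟨1, by simp⟩
  | succ n ih =>
    obtain ⟨w, hw⟩ := ih
    refine ⟨Units.map (galRestrict (𝓞 K) K M (𝓞 M) (τ ^ n)).toAlgHom.toRingHom.toMonoidHom δ * w,
      ?_⟩
    rw [pow_succ, AlgEquiv.mul_apply, hδ, map_mul, hw]
    simp only [Units.val_mul, Units.coe_map, map_mul, mul_assoc]
    congr 1
    exact (algebraMap_galRestrict_apply (𝓞 K) (τ ^ n) (δ : 𝓞 M)).symm

/-- The field-theoretic part of Thaine's argument, for a generic model `M` of `K(ζ_q)` which is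
known to have degree `q - 1` over `K`. -/
theorem thaine_field_aux [IsCyclotomicExtension {q} K M]
    (hirr : Irreducible (cyclotomic q K)) (hdeg : Module.finrank K M = q - 1)
    {ζ : K} (hζ : IsPrimitiveRoot ζ p) (hpq : p ∣ q - 1) {ζq : M} (hζq : IsPrimitiveRoot ζq q) :
    ∃ (τ : M ≃ₐ[K] M) (g : ℕ) (β : 𝓞 M) (u : (𝓞 M)ˣ) (γ : 𝓞 K),
      τ ζq = ζq ^ g ∧ γ ≠ 0 ∧ algebraMap (𝓞 K) (𝓞 M) γ = β ^ (q - 1) * u ∧
      τ (β : M) = (algebraMap K M ζ - ζq) * (β : M) := by
  have hpp : p.Prime := hp.out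
  have hqp : q.Prime := hq.out
  have : NeZero q := ⟨hqp.ne_zero⟩
  have : NeZero p := ⟨hpp.ne_zero⟩
  have : IsGalois K M := IsCyclotomicExtension.isGalois {q} K M
  have : FiniteDimensional K M := IsCyclotomicExtension.finiteDimensional {q} K M
  -- the Galois group is cyclic
  let e := IsCyclotomicExtension.autEquivPow M hirr
  have : IsCyclic (M ≃ₐ[K] M) := isCyclic_of_surjective e.symm e.symm.surjective
  obtain ⟨τ₀, hτ₀⟩ := IsCyclic.exists_generator (α := M ≃ₐ[K] M)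
  -- the element δ = ζ_p - ζ_q
  set δ : 𝓞 M := algebraMap (𝓞 K) (𝓞 M) hζ.toInteger - hζq.toInteger with hδdef
  have hδcoe : (δ : M) = algebraMap K M ζ - ζq := rfl
  have hnorm : Algebra.norm K (algebraMap (𝓞 M) M δ) = 1 := by
    have := norm_zeta_sub_zeta hirr hζ hpq hζq
    rwa [← hδcoe] at this
  -- δ is a unit
  have hδunit : IsUnit δ := by
    rw [← RingOfIntegers.isUnit_norm_of_isGalois K]
    have h1 : RingOfIntegers.norm K δ = 1 := by
      apply RingOfIntegers.ext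
      rw [RingOfIntegers.coe_norm]
      exact hnorm
    rw [h1]; exact isUnit_one
  obtain ⟨δu, hδu⟩ := hδunit
  -- Hilbert 90
  obtain ⟨ε, hε0, hε⟩ := groupCohomology.exists_mul_galRestrict_of_norm_eq_one
    (K := K) (L := M) (A := 𝓞 K) (B := 𝓞 M) (g := τ₀) hτ₀ (η := δ) hnorm
  set β : 𝓞 M := galRestrict (𝓞 K) K M (𝓞 M) τ₀ ε with hβdef
  have hβcoe : (β : M) = τ₀ (ε : M) := algebraMap_galRestrict_apply (𝓞 K) τ₀ ε
  have hβ0 : β ≠ 0 := by
    rw [hβdef]
    exact (map_ne_zero_iff _ (galRestrict (𝓞 K) K M (𝓞 M) τ₀).injective).mpr hε0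
  have hτβ : τ₀⁻¹ (β : M) = (δ : M) * (β : M) := by
    have h1 : (δ : M) * (β : M) = (ε : M) := by
      rw [← hε]
      simp only [RingOfIntegers.coe_eq_algebraMap, map_mul]
    rw [h1, hβcoe]
    simp
  -- the generator τ = τ₀⁻¹
  have hτgen : ∀ x : M ≃ₐ[K] M, x ∈ Subgroup.zpowers τ₀⁻¹ := by
    intro x
    rw [Subgroup.zpowers_inv]
    exact hτ₀ x
  have hall : ∀ σ : M ≃ₐ[K] M, ∃ w : (𝓞 M)ˣ, σ (β : M) = ((w : 𝓞 M) : M) * (β : M) := by
    intro σ
    have h1 := hτgen σ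
    rw [← mem_powers_iff_mem_zpowers, Submonoid.mem_powers_iff] at h1
    obtain ⟨n, rfl⟩ := h1
    exact exists_unit_pow_apply τ₀⁻¹ β δu (by rw [hδu]; exact hτβ) n
  choose w hw using hall
  refine ⟨τ₀⁻¹, ((hζq.autToPow K) τ₀⁻¹ : ZMod q).val, β, ∏ σ : M ≃ₐ[K] M, w σ,
    RingOfIntegers.norm K β, (hζq.autToPow_spec K τ₀⁻¹).symm, ?_, ?_, hτβ⟩
  · intro h0
    have h1 : ((RingOfIntegers.norm K β : 𝓞 K) : K) = 0 := by rw [h0]; simp
    rw [RingOfIntegers.coe_norm, Algebra.norm_eq_zero_iff] at h1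
    exact hβ0 (RingOfIntegers.ext h1)
  · apply RingOfIntegers.ext
    rw [RingOfIntegers.coe_algebraMap_norm, Algebra.norm_eq_prod_automorphisms,
      Finset.prod_congr rfl (fun σ _ => hw σ), Finset.prod_mul_distrib, Finset.prod_const,
      Finset.card_univ, ← Nat.card_eq_fintype_card, IsGalois.card_aut_eq_finrank, hdeg]
    simp [mul_comm]

/-- `K(ζ_q) = ℚ(ζ_{pq})` for `K = ℚ(ζ_p)`, `q ≠ p`. -/
theorem isCyclotomicExtension_mul [IsCyclotomicExtension {p} ℚ K] [IsCyclotomicExtension {q} K M]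
    (hqp : q ≠ p) : IsCyclotomicExtension {p * q} ℚ M := by
  have hpp : p.Prime := hp.out
  have hqq : q.Prime := hq.out
  have : NeZero p := ⟨hpp.ne_zero⟩
  have : NeZero q := ⟨hqq.ne_zero⟩
  have H0 : IsCyclotomicExtension ({p} ∪ {q}) ℚ M :=
    IsCyclotomicExtension.trans {p} {q} ℚ K M (algebraMap K M).injective
  -- a primitive `pq`-th root of unity
  have hζp := IsCyclotomicExtension.zeta_spec p ℚ K
  have hζq := IsCyclotomicExtension.zeta_spec q K M
  have hζp' : IsPrimitiveRoot (algebraMap K M (IsCyclotomicExtension.zeta p ℚ K)) p :=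
    hζp.map_of_injective (algebraMap K M).injective
  have hr : IsPrimitiveRoot (algebraMap K M (IsCyclotomicExtension.zeta p ℚ K) *
      IsCyclotomicExtension.zeta q K M) (p * q) := by
    have hcop : Nat.Coprime p q := (Nat.coprime_primes hpp hqq).mpr (Ne.symm hqp)
    have h1 : orderOf (algebraMap K M (IsCyclotomicExtension.zeta p ℚ K)) = p :=
      hζp'.eq_orderOf.symm
    have h2 : orderOf (IsCyclotomicExtension.zeta q K M) = q := hζq.eq_orderOf.symm
    have h3 := (Commute.all (algebraMap K M (IsCyclotomicExtension.zeta p ℚ K))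
      (IsCyclotomicExtension.zeta q K M)).orderOf_mul_eq_mul_orderOf_of_coprime
        (by rw [h1, h2]; exact hcop)
    rw [h1, h2] at h3
    rw [← h3]
    exact IsPrimitiveRoot.orderOf _
  have H1 : IsCyclotomicExtension (({p} ∪ {q}) ∪ {p * q}) ℚ M :=
    IsCyclotomicExtension.union_of_isPrimitiveRoot _ ℚ M hr
  have hset : (({p} ∪ {q}) ∪ {p * q} : Set ℕ) = ({p * q} ∪ {p}) ∪ {q} := by
    ext x; simp only [Set.mem_union, Set.mem_singleton_iff]; tauto
  rw [hset] at H1
  have H2 : IsCyclotomicExtension ({p * q} ∪ {p}) ℚ M :=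
    (IsCyclotomicExtension.iff_union_of_dvd ℚ M
      ⟨p * q, by simp, mul_ne_zero hpp.ne_zero hqq.ne_zero, dvd_mul_left q p⟩).mpr H1
  exact (IsCyclotomicExtension.iff_union_of_dvd ℚ M
      ⟨p * q, by simp, mul_ne_zero hpp.ne_zero hqq.ne_zero, dvd_mul_right p q⟩).mpr H2

/-- `[K(ζ_q) : K] = q - 1` and `Φ_q` is irreducible over `K = ℚ(ζ_p)`, for primes `q ≠ p`. -/
theorem finrank_eq_and_irreducible [IsCyclotomicExtension {p} ℚ K]
    [IsCyclotomicExtension {q} K M] (hqp : q ≠ p) :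
    Module.finrank K M = q - 1 ∧ Irreducible (cyclotomic q K) := by
  have hpp : p.Prime := hp.out
  have hqq : q.Prime := hq.out
  have : NeZero p := ⟨hpp.ne_zero⟩
  have : NeZero q := ⟨hqq.ne_zero⟩
  have : NeZero (p * q) := ⟨mul_ne_zero hpp.ne_zero hqq.ne_zero⟩
  have hcop : Nat.Coprime p q := (Nat.coprime_primes hpp hqq).mpr (Ne.symm hqp)
  have H := isCyclotomicExtension_mul (K := K) (M := M) hqp
  have h1 : Module.finrank ℚ M = (p - 1) * (q - 1) := by
    rw [IsCyclotomicExtension.finrank M (cyclotomic.irreducible_rat (Nat.pos_of_ne_zero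
      (mul_ne_zero hpp.ne_zero hqq.ne_zero))), Nat.totient_mul hcop, Nat.totient_prime hpp,
      Nat.totient_prime hqq]
  have h2 : Module.finrank ℚ K = p - 1 := by
    rw [IsCyclotomicExtension.finrank K (cyclotomic.irreducible_rat hpp.pos),
      Nat.totient_prime hpp]
  have h3 := Module.finrank_mul_finrank ℚ K M
  rw [h1, h2] at h3
  have hdeg : Module.finrank K M = q - 1 :=
    Nat.eq_of_mul_eq_mul_left (by have := hpp.two_le; omega) h3
  refine ⟨hdeg, ?_⟩
  have hζq := IsCyclotomicExtension.zeta_spec q K M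
  have hint : IsIntegral K (IsCyclotomicExtension.zeta q K M) :=
    hζq.isIntegral hqq.pos |>.tower_top
  have hdvd : minpoly K (IsCyclotomicExtension.zeta q K M) ∣ cyclotomic q K := by
    apply minpoly.dvd
    rw [aeval_def, eval₂_eq_eval_map, map_cyclotomic]
    exact hζq.isRoot_cyclotomic hqq.pos
  have hnat : (minpoly K (IsCyclotomicExtension.zeta q K M)).natDegree = q - 1 := by
    rw [← hdeg, (hζq.powerBasis K).finrank, IsPrimitiveRoot.powerBasis_dim]
  have heq : cyclotomic q K = minpoly K (IsCyclotomicExtension.zeta q K M) :=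
    eq_of_monic_of_dvd_of_natDegree_le (minpoly.monic hint) (cyclotomic.monic q K) hdvd
      (by rw [natDegree_cyclotomic, Nat.totient_prime hqq, hnat])
  rw [heq]
  exact minpoly.irreducible hint

end generic

section final

variable {p : ℕ} [Fact p.Prime] {K : Type} [Field K] [NumberField K]

/-- **Thaine, field part**: the data `H71.ThaineFieldData ζ q` exists for every prime `q ≠ p`
with `p ∣ q - 1`. -/
theorem thaineFieldData [IsCyclotomicExtension {p} ℚ K] {ζ : K} (hζ : IsPrimitiveRoot ζ p)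
    (q : ℕ) (hq : q.Prime) (hqp : q ≠ p) (hpq : p ∣ q - 1) :
    Fermat.Agent.S14.H71.ThaineFieldData ζ q := by
  have hqf : Fact q.Prime := ⟨hq⟩
  have : NeZero q := ⟨hq.ne_zero⟩
  obtain ⟨hdeg, hirr⟩ :=
    finrank_eq_and_irreducible (p := p) (q := q) (K := K) (M := CyclotomicField q K) hqp
  have hζq := IsCyclotomicExtension.zeta_spec q K (CyclotomicField q K)
  obtain ⟨τ, g, β, u, γ, h1, h2, h3, h4⟩ := thaine_field_aux hirr hdeg hζ hpq hζq
  exact ⟨CyclotomicField q K, inferInstance, inferInstance, inferInstance, _, τ, g, β, u, γ,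
    inferInstance, hζq, hdeg, h1, h2, h3, h4⟩

/-- **Thaine's theorem** in the shape of the S14 skeleton (`thaine_char`): if the eigen-character
`χ` is nontrivial on the class of the degree-one prime `Q ∌ p`, then `thetaTwo` is a `p`-th power
modulo `Q`. -/
theorem thaine_char (hp5 : 5 ≤ p) [IsCyclotomicExtension {p} ℚ K] {ζ : K}
    (hζ : IsPrimitiveRoot ζ p) (χ : ClassGroup (𝓞 K) →* Multiplicative (ZMod p))
    (hχ : IsEigenChar hζ χ) (Q : (Ideal (𝓞 K))⁰) (hQ : (Q : Ideal (𝓞 K)).IsPrime)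
    (hq : (Ideal.absNorm (Q : Ideal (𝓞 K))).Prime) (hQp : (p : 𝓞 K) ∉ (Q : Ideal (𝓞 K)))
    (hQχ : χ (ClassGroup.mk0 Q) ≠ 1) :
    ∃ y : 𝓞 K, thetaTwo hζ - y ^ p ∈ (Q : Ideal (𝓞 K)) := by
  have hqp : Ideal.absNorm (Q : Ideal (𝓞 K)) ≠ p := by
    intro h
    apply hQp
    rw [← h]
    exact Ideal.absNorm_mem _
  exact Fermat.Agent.S14.H71.thaine_char_of_fieldData hζ χ hχ Q hQ hq hQp hQχ
    (thaineFieldData hζ _ hq hqp
      (Fermat.Agent.S14.H71.dvd_absNorm_sub_one hζ (Q : Ideal (𝓞 K)) hq hQp))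

end final

end Fermat.Agent.S14.H98
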